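import Fermat.Agent.ErdosKac.Model
import Fermat.Agent.CombinatorialSieve.Defect

/-!
# Divisibility by small primes against a weighted independent model

`f` counts on a finite set with every product of at most `K` of the primes dividing a share `∏ c_q`
of it up to `E`. Then the average of `(1 + w) ^ #{q ∈ P | q ∣ f}` is `∏ (1 + w c_q)` up to the
truncation error and `(2 #P) ^ K E / X`.
-/

set_option autoImplicit false

noncomputable section

namespace FA.PointEK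

open Finset

/-- The elementary symmetric sums of the shares. -/
def esymm (c : ℕ → ℝ) (P : Finset ℕ) (k : ℕ) : ℝ := ∑ T ∈ P.powersetCard k, ∏ q ∈ T, c q

theorem esymm_nonneg {c : ℕ → ℝ} {P : Finset ℕ} (hc : ∀ q ∈ P, 0 ≤ c q) (k : ℕ) :
    0 ≤ esymm c P k :=
  sum_nonneg fun _ hT => prod_nonneg fun q hq => hc q ((mem_powersetCard.1 hT).1 hq)

theorem esymm_le {c : ℕ → ℝ} {P : Finset ℕ} (hc : ∀ q ∈ P, 0 ≤ c q) (k : ℕ) :
    esymm c P k ≤ (∑ q ∈ P, c q) ^ k / k.factorial := by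
  rw [le_div_iff₀ (Nat.cast_pos.2 k.factorial_pos), mul_comm, esymm]
  exact FA.CombinatorialSieve.factorial_mul_esymm_le hc k

theorem prod_one_add_eq (c : ℕ → ℝ) (P : Finset ℕ) (w : ℂ) :
    ∏ q ∈ P, (1 + w * (c q : ℂ)) = ∑ k ∈ range (P.card + 1), w ^ k * (esymm c P k : ℂ) := by
  rw [prod_one_add, sum_powerset]
  refine sum_congr rfl fun k _ => ?_
  rw [esymm, Complex.ofReal_sum, mul_sum]
  refine sum_congr rfl fun T hT => ?_
  rw [Complex.ofReal_prod, ← (mem_powersetCard.1 hT).2, ← prod_const, ← prod_mul_distrib]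

variable {S P : Finset ℕ} {f : ℕ → ℕ} {c : ℕ → ℝ} {X E : ℝ} {K : ℕ}

theorem abs_sum_choose_sub_le (hE : 0 ≤ E)
    (hcount : ∀ T ⊆ P, T.card ≤ K →
      |((S.filter fun p => ∀ q ∈ T, q ∣ f p).card : ℝ) - (∏ q ∈ T, c q) * X| ≤ E)
    {k : ℕ} (hk : k ≤ K) :
    |(∑ p ∈ S, ((P.filter (· ∣ f p)).card.choose k : ℝ)) - X * esymm c P k| ≤
      (P.card : ℝ) ^ k * E := by
  have e : (∑ p ∈ S, ((P.filter (· ∣ f p)).card.choose k : ℝ)) =
      ∑ T ∈ P.powersetCard k, ((S.filter fun p => ∀ q ∈ T, q ∣ f p).card : ℝ) := by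
    have h : ∀ p, ((P.filter (· ∣ f p)).card.choose k : ℝ) =
        ∑ T ∈ P.powersetCard k, if ∀ q ∈ T, q ∣ f p then (1 : ℝ) else 0 := fun p => by
      rw [← card_powersetCard, sum_boole]
      congr 2
      ext T
      simp only [mem_powersetCard, mem_filter]
      refine ⟨fun h => ⟨⟨h.1.trans (filter_subset _ _), h.2⟩,
          fun q hq => (mem_filter.1 (h.1 hq)).2⟩,
        fun h => ⟨fun q hq => mem_filter.2 ⟨h.1.1 hq, h.2 q hq⟩, h.1.2⟩⟩
    rw [sum_congr rfl fun p _ => h p, sum_comm]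
    exact sum_congr rfl fun T _ => sum_boole _ _
  rw [e, esymm, mul_sum, ← sum_sub_distrib]
  refine (abs_sum_le_sum_abs _ _).trans
    ((sum_le_sum (g := fun _ => E) fun T hT => ?_).trans ?_)
  · rw [mul_comm X]
    exact hcount T (mem_powersetCard.1 hT).1 ((mem_powersetCard.1 hT).2.le.trans hk)
  · rw [sum_const, nsmul_eq_mul, card_powersetCard]
    exact mul_le_mul_of_nonneg_right (by exact_mod_cast Nat.choose_le_pow _ k) hE

/-- **The comparison with the model.** -/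
theorem norm_sum_pow_sub_le (hc : ∀ q ∈ P, 0 ≤ c q) {w : ℂ} (hw : ‖1 + w‖ ≤ 1)
    (hK : 6 * (‖w‖ * ∑ q ∈ P, c q) ≤ K) (hX : 0 < X) (hE : 0 ≤ E)
    (hcount : ∀ T ⊆ P, T.card ≤ K →
      |((S.filter fun p => ∀ q ∈ T, q ∣ f p).card : ℝ) - (∏ q ∈ T, c q) * X| ≤ E) :
    ‖(∑ p ∈ S, (1 + w) ^ (P.filter (· ∣ f p)).card) / (X : ℂ) -
        ∏ q ∈ P, (1 + w * (c q : ℂ))‖ ≤
      3 * (1 / 2) ^ K + (K + 1) * (2 * ((P.card : ℝ) + 1)) ^ K * E / X := by
  obtain ⟨L, hL⟩ : ∃ L, L = ∑ q ∈ P, c q := ⟨_, rfl⟩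
  rw [← hL] at hK
  have hL0 : 0 ≤ L := hL ▸ sum_nonneg hc
  have hw2 : ‖w‖ ≤ 2 := by
    calc ‖w‖ = ‖(1 + w) - 1‖ := by rw [add_sub_cancel_left]
      _ ≤ ‖1 + w‖ + ‖(1 : ℂ)‖ := norm_sub_le _ _
      _ ≤ 2 := by rw [norm_one]; linarith
  obtain ⟨B, hB⟩ : ∃ B, B = (2 * ((P.card : ℝ) + 1)) ^ K * E := ⟨_, rfl⟩
  rw [mul_assoc ((K : ℝ) + 1), ← hB]
  have hterm : ∀ k ≤ K, ‖w‖ ^ k * ((P.card : ℝ) ^ k * E) ≤ B := fun k hk => by
    rw [← mul_assoc, ← mul_pow, hB]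
    refine mul_le_mul_of_nonneg_right
      ((pow_le_pow_left₀ (by positivity) ?_ k).trans (pow_le_pow_right₀ ?_ hk)) hE
    · exact mul_le_mul hw2 (le_add_of_nonneg_right zero_le_one) (Nat.cast_nonneg _) two_pos.le
    · linarith [Nat.cast_nonneg (α := ℝ) P.card]
  obtain ⟨d, hd⟩ : ∃ d : ℕ → ℝ,
      d = fun k => ∑ p ∈ S, ((P.filter (· ∣ f p)).card.choose k : ℝ) := ⟨_, rfl⟩
  have hdk : ∀ k ≤ K, |d k - X * esymm c P k| ≤ (P.card : ℝ) ^ k * E := fun k hk =>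
    hd ▸ abs_sum_choose_sub_le hE hcount hk
  have hes : ∀ k, K ≤ k → ‖w‖ ^ k * esymm c P k ≤ (1 / 2) ^ k := fun k hk => by
    refine (mul_le_mul_of_nonneg_left (esymm_le hc k) (by positivity)).trans ?_
    rw [← hL, ← mul_div_assoc, ← mul_pow]
    exact FA.ErdosKac.pow_div_factorial_le (mul_nonneg (norm_nonneg w) hL0) hK hk
  have h1 : ‖(∑ p ∈ S, (1 + w) ^ (P.filter (· ∣ f p)).card) / (X : ℂ) -
      ∑ k ∈ range K, w ^ k * ((d k / X : ℝ) : ℂ)‖ ≤ (1 / 2) ^ K + B / X := by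
    have e : ∑ k ∈ range K, w ^ k * ((d k / X : ℝ) : ℂ) =
        (∑ p ∈ S, ∑ k ∈ range K, ((P.filter (· ∣ f p)).card.choose k : ℂ) * w ^ k) / (X : ℂ) := by
      rw [sum_comm, sum_div, hd]
      refine sum_congr rfl fun k _ => ?_
      push_cast
      rw [mul_div_assoc', mul_comm (w ^ k), sum_mul]
    rw [e, ← sub_div, ← sum_sub_distrib, norm_div, Complex.norm_real, Real.norm_of_nonneg hX.le,
      div_le_iff₀ hX, add_mul, div_mul_cancel₀ _ hX.ne']
    refine (norm_sum_le _ _).trans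
      ((sum_le_sum fun n _ => FA.ErdosKac.norm_binomial_trunc_le hw _ K).trans ?_)
    have h := (abs_le.1 (hdk K le_rfl)).2
    have h' := mul_le_mul_of_nonneg_left (hes K le_rfl) hX.le
    have h'' := mul_le_mul_of_nonneg_right (show d K ≤ X * esymm c P K + (P.card : ℝ) ^ K * E by
      linarith) (show 0 ≤ ‖w‖ ^ K by positivity)
    rw [← sum_mul]
    rw [hd] at h''
    have h3 := hterm K le_rfl
    linarith
  have h2 : ‖∑ k ∈ range K, w ^ k * ((d k / X : ℝ) : ℂ) -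
      ∑ k ∈ range K, w ^ k * (esymm c P k : ℂ)‖ ≤ K * B / X := by
    rw [← sum_sub_distrib]
    refine (norm_sum_le _ _).trans ((sum_le_sum (g := fun _ => B / X) fun k hk => ?_).trans ?_)
    · rw [← mul_sub, ← Complex.ofReal_sub, norm_mul, norm_pow, Complex.norm_real, Real.norm_eq_abs,
        div_sub' hX.ne', abs_div, abs_of_pos hX, mul_div_assoc']
      refine div_le_div_of_nonneg_right ?_ hX.le
      exact (mul_le_mul_of_nonneg_left (hdk k (mem_range.1 hk).le) (by positivity)).trans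
        (hterm k (mem_range.1 hk).le)
    · rw [sum_const, card_range, nsmul_eq_mul, mul_div_assoc]
  have h3 : ‖∑ k ∈ range K, w ^ k * (esymm c P k : ℂ) - ∏ q ∈ P, (1 + w * (c q : ℂ))‖ ≤
      2 * (1 / 2) ^ K := by
    obtain ⟨M, hM⟩ : ∃ M, M = max K (P.card + 1) := ⟨_, rfl⟩
    have e : ∏ q ∈ P, (1 + w * (c q : ℂ)) = ∑ k ∈ range M, w ^ k * (esymm c P k : ℂ) := by
      rw [prod_one_add_eq]
      refine sum_subset (range_mono (by omega)) fun k _ hk => ?_
      rw [mem_range, not_lt] at hk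
      rw [esymm, powersetCard_eq_empty.2 (by omega), sum_empty, Complex.ofReal_zero, mul_zero]
    rw [e, ← sum_range_add_sum_Ico _ (show K ≤ M by omega), sub_add_cancel_left, norm_neg]
    refine (norm_sum_le _ _).trans
      ((sum_le_sum (g := fun k => (1 / 2 : ℝ) ^ k) fun k hk => ?_).trans ?_)
    · rw [norm_mul, norm_pow, Complex.norm_real, Real.norm_of_nonneg (esymm_nonneg hc k)]
      exact hes k (mem_Ico.1 hk).1
    · rw [sum_Ico_eq_sum_range]
      simp only [pow_add, ← mul_sum]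
      rw [mul_comm (2 : ℝ)]
      exact mul_le_mul_of_nonneg_left (sum_geometric_two_le _) (by positivity)
  have h4 := norm_sub_le_norm_sub_add_norm_sub
    ((∑ p ∈ S, (1 + w) ^ (P.filter (· ∣ f p)).card) / (X : ℂ))
    (∑ k ∈ range K, w ^ k * ((d k / X : ℝ) : ℂ)) (∑ k ∈ range K, w ^ k * (esymm c P k : ℂ))
  have h5 := norm_sub_le_norm_sub_add_norm_sub
    ((∑ p ∈ S, (1 + w) ^ (P.filter (· ∣ f p)).card) / (X : ℂ))
    (∑ k ∈ range K, w ^ k * (esymm c P k : ℂ)) (∏ q ∈ P, (1 + w * (c q : ℂ)))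
  rw [add_mul, one_mul, add_div]
  linarith

/-- The model product against the exponential. -/
theorem norm_prod_sub_exp_le (hc : ∀ q ∈ P, 0 ≤ c q ∧ c q ≤ 1) {w : ℂ} (hw : ‖1 + w‖ ≤ 1)
    (hw1 : ‖w‖ ≤ 1) :
    ‖∏ q ∈ P, (1 + w * (c q : ℂ)) - Complex.exp (w * ((∑ q ∈ P, c q : ℝ) : ℂ))‖ ≤
      ‖w‖ ^ 2 * ∑ q ∈ P, c q ^ 2 := by
  have hre : w.re ≤ 0 := by
    have h1 : (1 + w).re ≤ 1 := ((1 + w).re_le_norm).trans hw
    rw [Complex.add_re, Complex.one_re] at h1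
    linarith
  rw [Complex.ofReal_sum, mul_sum, Complex.exp_sum, mul_sum]
  induction P using Finset.induction with
  | empty => simp
  | @insert a P ha ih =>
    rw [prod_insert ha, prod_insert ha, sum_insert ha]
    obtain ⟨h0, h1⟩ := hc a (mem_insert_self a P)
    have hP : ∀ q ∈ P, 0 ≤ c q ∧ c q ≤ 1 := fun q hq => hc q (mem_insert_of_mem hq)
    have hfac : ∀ q ∈ P, ‖1 + w * (c q : ℂ)‖ ≤ 1 := fun q hq => by
      obtain ⟨g0, g1⟩ := hP q hq
      have e : 1 + w * (c q : ℂ) = ((c q : ℝ) : ℂ) * (1 + w) + ((1 - c q : ℝ) : ℂ) := by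
        push_cast
        ring
      rw [e]
      refine (norm_add_le _ _).trans ?_
      rw [norm_mul, Complex.norm_real, Complex.norm_real, Real.norm_of_nonneg g0,
        Real.norm_of_nonneg (sub_nonneg.2 g1)]
      linarith [mul_le_mul_of_nonneg_left hw g0]
    have hexp : ‖Complex.exp (w * (c a : ℂ))‖ ≤ 1 := by
      rw [Complex.norm_exp, Real.exp_le_one_iff, Complex.mul_re, Complex.ofReal_re,
        Complex.ofReal_im, mul_zero, sub_zero]
      exact mul_nonpos_of_nonpos_of_nonneg hre h0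
    have hn : ‖w * (c a : ℂ)‖ = ‖w‖ * c a := by
      rw [norm_mul, Complex.norm_real, Real.norm_of_nonneg h0]
    have hstep := Complex.norm_exp_sub_one_sub_id_le (x := w * (c a : ℂ))
      (hn ▸ mul_le_one₀ hw1 h0 h1)
    rw [hn, mul_pow, norm_sub_rev] at hstep
    calc ‖(1 + w * (c a : ℂ)) * ∏ q ∈ P, (1 + w * (c q : ℂ)) -
          Complex.exp (w * (c a : ℂ)) * ∏ q ∈ P, Complex.exp (w * (c q : ℂ))‖
        = ‖(1 + w * (c a : ℂ) - Complex.exp (w * (c a : ℂ))) * ∏ q ∈ P, (1 + w * (c q : ℂ)) +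
          Complex.exp (w * (c a : ℂ)) * (∏ q ∈ P, (1 + w * (c q : ℂ)) -
            ∏ q ∈ P, Complex.exp (w * (c q : ℂ)))‖ := by congr 1; ring
      _ ≤ _ := (norm_add_le _ _).trans (add_le_add ?_ ?_)
    · rw [norm_mul, norm_prod]
      refine (mul_le_of_le_one_right (norm_nonneg _)
        (prod_le_one (fun _ _ => norm_nonneg _) hfac)).trans (le_of_eq_of_le ?_ hstep)
      congr 1
      ring
    · rw [norm_mul]
      exact (mul_le_of_le_one_left (norm_nonneg _) hexp).trans (ih hP)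

end FA.PointEK

end
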