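import Fermat.Agent.PointCountErdosKac.Model
import Fermat.Agent.ErdosKac.Main

/-!
# A Gaussian criterion

If the weighted model applies up to `K ≍ √x` primes, the sum of the shares is `x + o (√x)`, and the
numbers `v` differ from the centred count by `o (√x)` on average, then `v / √x` over the sets is
Gaussian in the limit.
-/

set_option autoImplicit false

noncomputable section

namespace FA.PointEK

open Finset Filter MeasureTheory
open scoped Topology

/-- The truncation. -/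
def truncLen (t x : ℝ) : ℕ := ⌈(12 * |t| + 1) * Real.sqrt x⌉₊

/-- The average character. -/
def charAvg (S : Finset ℕ) (v : ℕ → ℝ) (x t : ℝ) : ℂ :=
  (∑ p ∈ S, Complex.exp ((t * v p / Real.sqrt x : ℝ) * Complex.I)) / (S.card : ℂ)

theorem norm_exp_sub_exp_le (a b : ℝ) :
    ‖Complex.exp ((a : ℂ) * Complex.I) - Complex.exp ((b : ℂ) * Complex.I)‖ ≤ |a - b| := by
  rw [show Complex.exp ((a : ℂ) * Complex.I) - Complex.exp ((b : ℂ) * Complex.I) =
    Complex.exp ((b : ℂ) * Complex.I) *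
      (Complex.exp (Complex.I * ((a - b : ℝ) : ℂ)) - 1) by
        rw [mul_sub, ← Complex.exp_add, mul_one]; push_cast; ring_nf,
    norm_mul, Complex.norm_exp_ofReal_mul_I, one_mul, ← Real.norm_eq_abs]
  exact Real.norm_exp_I_mul_ofReal_sub_one_le

/-- The Gaussian exponent. -/
theorem tendsto_model {L x : ℕ → ℝ} (t : ℝ) (hx : Tendsto x atTop atTop) (hL0 : ∀ N, 0 ≤ L N)
    (hratio : Tendsto (fun N => L N / x N) atTop (𝓝 1)) :
    Tendsto (fun N => Complex.exp ((Complex.exp (((t / Real.sqrt (x N) : ℝ) : ℂ) * Complex.I) - 1) *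
      (L N : ℂ) - ((t / Real.sqrt (x N) * L N : ℝ) : ℂ) * Complex.I))
      atTop (𝓝 (Complex.exp (-(t : ℂ) ^ 2 / 2))) := by
  obtain ⟨s, hsdef⟩ : ∃ s : ℕ → ℝ, s = fun N => t / Real.sqrt (x N) := ⟨_, rfl⟩
  have hs : Tendsto s atTop (𝓝 0) :=
    hsdef ▸ tendsto_const_nhds.div_atTop (Real.tendsto_sqrt_atTop.comp hx)
  simp only [show ∀ N, t / Real.sqrt (x N) = s N from fun N => by rw [hsdef]]
  refine (Complex.continuous_exp.tendsto _).comp ?_
  have hmain : Tendsto (fun N => ((-(s N ^ 2 * L N) / 2 : ℝ) : ℂ)) atTop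
      (𝓝 (-(t : ℂ) ^ 2 / 2)) := by
    have h1 := ((Complex.continuous_ofReal.tendsto _).comp
      ((hratio.const_mul (-(t ^ 2) / 2))))
    rw [mul_one, Complex.ofReal_div, Complex.ofReal_neg, Complex.ofReal_pow,
      Complex.ofReal_ofNat] at h1
    refine h1.congr' ?_
    filter_upwards [hx.eventually_gt_atTop 0] with N hN
    simp only [Function.comp_apply, hsdef]
    congr 1
    rw [div_pow, Real.sq_sqrt hN.le]
    field_simp
  refine hmain.congr_dist ?_
  have hbound : Tendsto (fun N => |s N| * (t ^ 2 * (L N / x N))) atTop (𝓝 0) := by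
    simpa using hs.abs.mul ((hratio.const_mul (t ^ 2)))
  refine squeeze_zero' (Eventually.of_forall fun N => dist_nonneg) ?_ hbound
  filter_upwards [(hs.abs.eventually_le_const (show |(0 : ℝ)| < 1 by simp)),
    hx.eventually_gt_atTop 0] with N hs1 hN
  rw [dist_eq_norm, norm_sub_rev]
  have hexp := Complex.exp_bound (x := (s N : ℂ) * Complex.I)
    (by simpa using hs1) (show 0 < 3 by norm_num)
  have e : (Complex.exp ((s N : ℂ) * Complex.I) - 1) * (L N : ℂ) -
      ((s N * L N : ℝ) : ℂ) * Complex.I - ((-(s N ^ 2 * L N) / 2 : ℝ) : ℂ) =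
      (L N : ℂ) * (Complex.exp ((s N : ℂ) * Complex.I) -
        ∑ m ∈ range 3, ((s N : ℂ) * Complex.I) ^ m / m.factorial) := by
    simp only [sum_range_succ, sum_range_zero, Nat.factorial]
    push_cast
    simp only [mul_pow, Complex.I_sq, pow_zero, pow_one]
    ring
  rw [e, norm_mul, Complex.norm_real, Real.norm_of_nonneg (hL0 N)]
  refine (mul_le_mul_of_nonneg_left hexp (hL0 N)).trans ?_
  rw [norm_mul, Complex.norm_I, mul_one, Complex.norm_real, Real.norm_eq_abs]
  have e2 : |s N| * (t ^ 2 * (L N / x N)) = L N * (|s N| ^ 3) := by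
    rw [pow_succ' |s N| 2, sq_abs, hsdef]
    simp only
    rw [div_pow, Real.sq_sqrt hN.le]
    ring
  rw [e2]
  refine mul_le_mul_of_nonneg_left (mul_le_of_le_one_right (by positivity) ?_) (hL0 N)
  norm_num [Nat.factorial]

/-- **The characters converge.** -/
theorem tendsto_charAvg {S P : ℕ → Finset ℕ} {f : ℕ → ℕ} {c : ℕ → ℝ} {X E x : ℕ → ℝ}
    {v : ℕ → ℕ → ℝ} {C : ℝ} (t : ℝ)
    (hc : ∀ N, ∀ q ∈ P N, 0 ≤ c q ∧ c q ≤ 1) (hsq : ∀ N, ∑ q ∈ P N, c q ^ 2 ≤ C)
    (hx : Tendsto x atTop atTop)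
    (hL : Tendsto (fun N => ((∑ q ∈ P N, c q) - x N) / Real.sqrt (x N)) atTop (𝓝 0))
    (hcount : ∀ᶠ N in atTop, 0 < X N ∧ 0 < (S N).card ∧ 0 ≤ E N ∧
      ∀ T ⊆ P N, T.card ≤ truncLen t (x N) →
        |(((S N).filter fun p => ∀ q ∈ T, q ∣ f p).card : ℝ) - (∏ q ∈ T, c q) * X N| ≤ E N)
    (hE : Tendsto (fun N => ((truncLen t (x N) : ℝ) + 1) *
      (2 * (((P N).card : ℝ) + 1)) ^ truncLen t (x N) * E N / X N) atTop (𝓝 0))
    (hv : Tendsto (fun N => (∑ p ∈ S N, |v N p - ((((P N).filter (· ∣ f p)).card : ℝ) -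
      ∑ q ∈ P N, c q)|) / ((S N).card * Real.sqrt (x N))) atTop (𝓝 0)) :
    Tendsto (fun N => charAvg (S N) (v N) (x N) t) atTop
      (𝓝 (Complex.exp (-(t : ℂ) ^ 2 / 2))) := by
  obtain ⟨L, hLdef⟩ : ∃ L : ℕ → ℝ, L = fun N => ∑ q ∈ P N, c q := ⟨_, rfl⟩
  have hL0 : ∀ N, 0 ≤ L N := fun N => hLdef ▸ sum_nonneg fun q hq => (hc N q hq).1
  have hratio : Tendsto (fun N => L N / x N) atTop (𝓝 1) := by
    have h1 := (hL.mul (tendsto_inv_atTop_zero.comp
      (Real.tendsto_sqrt_atTop.comp hx))).add_const 1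
    rw [zero_mul, zero_add] at h1
    refine h1.congr' ?_
    filter_upwards [hx.eventually_gt_atTop 0] with N hN
    simp only [Function.comp_apply, hLdef]
    rw [← div_eq_mul_inv, div_div, Real.mul_self_sqrt hN.le, sub_div, div_self hN.ne']
    ring
  obtain ⟨s, hsdef⟩ : ∃ s : ℕ → ℝ, s = fun N => t / Real.sqrt (x N) := ⟨_, rfl⟩
  have hs : Tendsto s atTop (𝓝 0) :=
    hsdef ▸ tendsto_const_nhds.div_atTop (Real.tendsto_sqrt_atTop.comp hx)
  have hK : Tendsto (fun N => truncLen t (x N)) atTop atTop := tendsto_nat_ceil_atTop.comp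
    ((Real.tendsto_sqrt_atTop.comp hx).const_mul_atTop (by positivity))
  refine (tendsto_model t hx hL0 hratio).congr_dist ?_
  have herr : Tendsto (fun N => 3 * (1 / 2 : ℝ) ^ truncLen t (x N) +
      2 * (((truncLen t (x N) : ℝ) + 1) * (2 * (((P N).card : ℝ) + 1)) ^ truncLen t (x N) * E N /
        X N) + |C| * s N ^ 2 + |t| * ((∑ p ∈ S N, |v N p - ((((P N).filter (· ∣ f p)).card : ℝ) -
      ∑ q ∈ P N, c q)|) / ((S N).card * Real.sqrt (x N)))) atTop (𝓝 0) := by
    have h1 := ((tendsto_pow_atTop_nhds_zero_of_lt_one (by norm_num : (0 : ℝ) ≤ 1 / 2)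
      (by norm_num)).comp hK).const_mul (3 : ℝ)
    have h2 := ((h1.add (hE.const_mul 2)).add ((hs.pow 2).const_mul |C|)).add (hv.const_mul |t|)
    simpa using h2
  refine squeeze_zero' (Eventually.of_forall fun N => dist_nonneg) ?_ herr
  filter_upwards [hcount, hs.abs.eventually_le_const (show |(0 : ℝ)| < 1 by simp),
    hx.eventually_gt_atTop 0, hratio.eventually_le_const (show (1 : ℝ) < 2 by norm_num)]
    with N ⟨hX, hS, hE0, hcnt⟩ hs1 hN hLx
  obtain ⟨w, hwdef⟩ : ∃ w : ℂ, w = Complex.exp ((s N : ℂ) * Complex.I) - 1 := ⟨_, rfl⟩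
  have hw1 : ‖1 + w‖ ≤ 1 := by rw [hwdef, add_sub_cancel, Complex.norm_exp_ofReal_mul_I]
  have hws : ‖w‖ ≤ |s N| := by
    rw [hwdef, mul_comm, ← Real.norm_eq_abs]
    exact Real.norm_exp_I_mul_ofReal_sub_one_le
  obtain ⟨g, hg⟩ : ∃ g : ℕ → ℕ, g = fun p => ((P N).filter (· ∣ f p)).card := ⟨_, rfl⟩
  obtain ⟨z, hz⟩ : ∃ z : ℂ, z = ∑ p ∈ S N,
      Complex.exp ((s N * ((g p : ℝ) - L N) : ℝ) * Complex.I) := ⟨_, rfl⟩
  -- from `v` to the count
  have hA : ‖charAvg (S N) (v N) (x N) t - z / ((S N).card : ℂ)‖ ≤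
      |t| * ((∑ p ∈ S N, |v N p - ((g p : ℝ) - L N)|) / ((S N).card * Real.sqrt (x N))) := by
    have e : |t| * ((∑ p ∈ S N, |v N p - ((g p : ℝ) - L N)|) /
        ((S N).card * Real.sqrt (x N))) =
        (∑ p ∈ S N, |s N| * |v N p - ((g p : ℝ) - L N)|) / (S N).card := by
      rw [hsdef, abs_div, abs_of_nonneg (Real.sqrt_nonneg _), ← mul_sum]
      ring
    rw [e, charAvg, hz, ← sub_div, ← sum_sub_distrib, norm_div, Complex.norm_natCast]
    refine div_le_div_of_nonneg_right ((norm_sum_le _ _).trans (sum_le_sum fun p _ => ?_))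
      (Nat.cast_nonneg _)
    refine (norm_exp_sub_exp_le _ _).trans (le_of_eq ?_)
    rw [← abs_mul]
    congr 1
    rw [hsdef]
    ring
  -- from the number of elements to `X`
  have hB : ‖z / ((S N).card : ℂ) - z / (X N : ℂ)‖ ≤ E N / X N := by
    have hz' : ‖z‖ ≤ (S N).card := by
      rw [hz]
      refine (norm_sum_le _ _).trans (le_of_eq ?_)
      rw [sum_congr rfl fun p _ => Complex.norm_exp_ofReal_mul_I _, sum_const, nsmul_one]
    have h0 := hcnt ∅ (empty_subset _) (by simp)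
    simp only [notMem_empty, false_implies, implies_true, filter_true, prod_empty, one_mul] at h0
    have hSr : (0 : ℝ) < (S N).card := Nat.cast_pos.2 hS
    rw [div_sub_div _ _ (Nat.cast_ne_zero.2 hS.ne') (Complex.ofReal_ne_zero.2 hX.ne'),
      mul_comm ((S N).card : ℂ) z, ← mul_sub, norm_div, norm_mul, norm_mul, Complex.norm_natCast,
      ← Complex.ofReal_natCast, ← Complex.ofReal_sub, Complex.norm_real, Complex.norm_real,
      Real.norm_eq_abs, Real.norm_of_nonneg hX.le, abs_sub_comm,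
      div_le_div_iff₀ (mul_pos hSr hX) hX]
    calc ‖z‖ * |((S N).card : ℝ) - X N| * X N ≤ (S N).card * E N * X N :=
          mul_le_mul_of_nonneg_right (mul_le_mul hz' h0 (abs_nonneg _) hSr.le) hX.le
      _ = E N * ((S N).card * X N) := by ring
  -- the model
  have hK6 : 6 * (‖w‖ * ∑ q ∈ P N, c q) ≤ truncLen t (x N) := by
    refine le_trans ?_ (Nat.le_ceil _)
    rw [show ∑ q ∈ P N, c q = L N by rw [hLdef]]
    have h1 := mul_le_mul_of_nonneg_right hws (hL0 N)
    have h2 : |s N| * L N ≤ 2 * |t| * Real.sqrt (x N) := by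
      rw [hsdef, abs_div, abs_of_nonneg (Real.sqrt_nonneg _), div_mul_eq_mul_div,
        div_le_iff₀ (Real.sqrt_pos.2 hN), mul_assoc (2 * |t|), Real.mul_self_sqrt hN.le]
      rw [div_le_iff₀ hN] at hLx
      have := mul_le_mul_of_nonneg_left hLx (abs_nonneg t)
      linarith
    linarith [Real.sqrt_nonneg (x N)]
  have hM := norm_sum_pow_sub_le (fun q hq => (hc N q hq).1) hw1 hK6 hX hE0 hcnt
  have hP := norm_prod_sub_exp_le (hc N) hw1 (hws.trans hs1)
  obtain ⟨Y, hY⟩ : ∃ Y : ℂ, Y = Complex.exp ((-(s N * L N) : ℝ) * Complex.I) := ⟨_, rfl⟩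
  have hY1 : ‖Y‖ = 1 := hY ▸ Complex.norm_exp_ofReal_mul_I _
  have ez : z / (X N : ℂ) = Y * ((∑ p ∈ S N, (1 + w) ^ g p) / (X N : ℂ)) := by
    rw [mul_div_assoc', hz, mul_sum, hY]
    congr 1
    refine sum_congr rfl fun p _ => ?_
    rw [hwdef, add_sub_cancel, ← Complex.exp_nat_mul, ← Complex.exp_add]
    congr 1
    push_cast
    ring
  have em : Complex.exp ((Complex.exp (((t / Real.sqrt (x N) : ℝ) : ℂ) * Complex.I) - 1) *
      (L N : ℂ) - ((t / Real.sqrt (x N) * L N : ℝ) : ℂ) * Complex.I) =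
      Y * Complex.exp (w * ((∑ q ∈ P N, c q : ℝ) : ℂ)) := by
    rw [show ∑ q ∈ P N, c q = L N by rw [hLdef], show t / Real.sqrt (x N) = s N by rw [hsdef],
      ← hwdef, hY, ← Complex.exp_add]
    congr 1
    push_cast
    ring
  rw [dist_eq_norm, norm_sub_rev, em]
  have hC : ‖z / (X N : ℂ) - Y * Complex.exp (w * ((∑ q ∈ P N, c q : ℝ) : ℂ))‖ ≤
      3 * (1 / 2 : ℝ) ^ truncLen t (x N) + ((truncLen t (x N) : ℝ) + 1) *
        (2 * (((P N).card : ℝ) + 1)) ^ truncLen t (x N) * E N / X N + |C| * s N ^ 2 := by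
    rw [ez, ← mul_sub, norm_mul, hY1, one_mul, hg]
    refine (norm_sub_le_norm_sub_add_norm_sub _ _ _).trans (add_le_add hM (hP.trans ?_))
    rw [mul_comm |C|, ← sq_abs (s N)]
    exact mul_le_mul (pow_le_pow_left₀ (norm_nonneg _) hws 2) ((hsq N).trans (le_abs_self C))
      (sum_nonneg fun q _ => sq_nonneg _) (sq_nonneg _)
  rw [hg, hLdef] at hA
  have h6 : E N / X N ≤ ((truncLen t (x N) : ℝ) + 1) *
      (2 * (((P N).card : ℝ) + 1)) ^ truncLen t (x N) * E N / X N := by
    refine div_le_div_of_nonneg_right (le_mul_of_one_le_left hE0 ?_) hX.le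
    exact one_le_mul_of_one_le_of_one_le (by linarith [Nat.cast_nonneg (α := ℝ) (truncLen t (x N))])
      (one_le_pow₀ (by linarith [Nat.cast_nonneg (α := ℝ) (P N).card]))
  have h4 := norm_sub_le_norm_sub_add_norm_sub (charAvg (S N) (v N) (x N) t)
    (z / ((S N).card : ℂ)) (z / (X N : ℂ))
  have h5 := norm_sub_le_norm_sub_add_norm_sub (charAvg (S N) (v N) (x N) t)
    (z / (X N : ℂ)) (Y * Complex.exp (w * ((∑ q ∈ P N, c q : ℝ) : ℂ)))
  linarith

/-- The measure of the values, `0` on an empty set. -/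
def valueMeasure (S : Finset ℕ) (v : ℕ → ℝ) (x : ℝ) : Measure ℝ :=
  if S = ∅ then Measure.dirac 0
  else ((S.card : ℕ) : ENNReal)⁻¹ • ∑ p ∈ S, Measure.dirac (v p / Real.sqrt x)

instance isProbabilityMeasure_valueMeasure (S : Finset ℕ) (v : ℕ → ℝ) (x : ℝ) :
    IsProbabilityMeasure (valueMeasure S v x) := by
  rw [valueMeasure]
  split_ifs with h
  · infer_instance
  refine ⟨?_⟩
  rw [Measure.smul_apply, Measure.finsetSum_apply, smul_eq_mul]
  simp only [measure_univ, sum_const, nsmul_one]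
  exact ENNReal.inv_mul_cancel (by simp [h]) (ENNReal.natCast_ne_top _)

theorem charFun_valueMeasure {S : Finset ℕ} (hS : S.Nonempty) (v : ℕ → ℝ) (x t : ℝ) :
    charFun (valueMeasure S v x) t = charAvg S v x t := by
  rw [charFun_apply_real, valueMeasure, if_neg hS.ne_empty, integral_smul_measure,
    integral_finsetSum_measure fun n _ => integrable_dirac (by simp), charAvg]
  simp only [integral_dirac]
  rw [ENNReal.toReal_inv, ENNReal.toReal_natCast, Complex.real_smul, div_eq_inv_mul]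
  push_cast
  congr 1
  refine sum_congr rfl fun p _ => ?_
  congr 1
  ring

/-- **The Gaussian limit from the characters.** -/
theorem tendsto_gaussian {S : ℕ → Finset ℕ} {v : ℕ → ℕ → ℝ} {x : ℕ → ℝ}
    (hS : ∀ᶠ N in atTop, (S N).Nonempty) (hx : ∀ᶠ N in atTop, 0 < x N)
    (h : ∀ t : ℝ, Tendsto (fun N => charAvg (S N) (v N) (x N) t) atTop
      (𝓝 (Complex.exp (-(t : ℂ) ^ 2 / 2)))) (y : ℝ) :
    Tendsto (fun N => (((S N).filter fun p => v N p ≤ y * Real.sqrt (x N)).card : ℝ) /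
      (S N).card) atTop (𝓝 ((ProbabilityTheory.gaussianReal 0 1).real (Set.Iic y))) := by
  let μs : ℕ → ProbabilityMeasure ℝ := fun N => ⟨valueMeasure (S N) (v N) (x N), inferInstance⟩
  let μ : ProbabilityMeasure ℝ := ⟨ProbabilityTheory.gaussianReal 0 1, inferInstance⟩
  have hconv : Tendsto μs atTop (𝓝 μ) := by
    refine ProbabilityMeasure.tendsto_iff_tendsto_charFun.2 fun t => ?_
    show Tendsto (fun N => charFun (valueMeasure (S N) (v N) (x N)) t) atTop
      (𝓝 (charFun (ProbabilityTheory.gaussianReal 0 1) t))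
    simp only [ProbabilityTheory.charFun_gaussianReal, Complex.ofReal_zero, mul_zero, zero_mul,
      zero_sub, NNReal.coe_one, Complex.ofReal_one, one_mul, ← neg_div]
    exact (h t).congr' (hS.mono fun N hN => (charFun_valueMeasure hN _ _ t).symm)
  have hnull : (μ : Measure ℝ) (frontier (Set.Iic y)) = 0 := by
    have := ProbabilityTheory.nullSingletonClass_gaussianReal (μ := 0)
      (one_ne_zero : (1 : NNReal) ≠ 0)
    rw [frontier_Iic]
    show (ProbabilityTheory.gaussianReal 0 1) {y} = 0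
    exact measure_singleton y
  have hm := (ENNReal.tendsto_toReal (measure_ne_top _ _)).comp
    (ProbabilityMeasure.tendsto_measure_of_null_frontier_of_tendsto' hconv hnull)
  refine hm.congr' ?_
  filter_upwards [hS, hx] with N hN hxN
  simp only [Function.comp_apply]
  show ((valueMeasure (S N) (v N) (x N)) (Set.Iic y)).toReal = _
  rw [valueMeasure, if_neg hN.ne_empty, Measure.smul_apply, Measure.finsetSum_apply, smul_eq_mul,
    ENNReal.toReal_mul, ENNReal.toReal_inv, ENNReal.toReal_natCast, div_eq_inv_mul, card_filter]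
  congr 1
  simp only [Measure.dirac_apply' _ measurableSet_Iic, Set.indicator_apply, Set.mem_Iic,
    Pi.one_apply]
  rw [ENNReal.toReal_sum fun _ _ => by split_ifs <;> simp, Nat.cast_sum]
  refine sum_congr rfl fun p _ => ?_
  simp only [div_le_iff₀ (Real.sqrt_pos.2 hxN)]
  split_ifs <;> simp

end FA.PointEK

end
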