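import Fermat.Agent.PointCountErdosKac.Limit
import Fermat.Agent.PointCountOmega.Turan

/-!
# The Gaussian law for `ω (#E(𝔽_p))`, on the Riemann hypothesis

The primes up to `exp (log N / log log N)` follow the weighted model up to `≍ √(log log N)` of them
at a time, those up to `N ^ (1/40)` add `O (log log log N)` on average, and the others boundedly
many.
-/

set_option autoImplicit false
set_option linter.style.haveILetI false

noncomputable section

open Finset Filter WeierstrassCurve FA.Frob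
open FA.ArtinHooley (logInt)
open FA.CyclicRed (AllFieldsRH)
open FA.ErdosKac (primesUpTo mem_primesUpTo recipSum loglog cut)
open FA.PointOmega (pointsMod dvdCount localShare localShare_bounds sievePrimes omegaPoints)
open scoped Classical Topology WeierstrassCurve.Affine

local notation "Qb" => AlgebraicClosure ℚ
local notation "GQ" => AlgebraicClosure ℚ ≃ₐ[ℚ] AlgebraicClosure ℚ

namespace FA.PointEK

theorem share_le_two_div {l : ℕ} (hl : 2 ≤ l) :
    0 ≤ localShare l ∧ localShare l ≤ 1 ∧ localShare l ≤ 2 * (l : ℝ)⁻¹ := by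
  obtain ⟨-, hup, h0⟩ := localShare_bounds hl
  have h2 : (2 : ℝ) ≤ l := Nat.ofNat_le_cast.2 hl
  have h3 : 2 / (l : ℝ) ^ 2 ≤ (l : ℝ)⁻¹ := by
    rw [div_le_iff₀ (by positivity), sq, ← mul_assoc, inv_mul_cancel₀ (by linarith), one_mul]
    exact h2
  have h4 := inv_anti₀ two_pos h2
  rw [one_div] at hup
  exact ⟨h0, by linarith, by linarith⟩

theorem two_le_of_mem {m z l : ℕ} (hl : l ∈ sievePrimes m z) : 2 ≤ l := by
  rw [sievePrimes, mem_filter, mem_primesUpTo] at hl
  exact hl.1.1.two_le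

/-- The decay of the errors. -/
theorem tendsto_decay :
    Tendsto (fun N : ℕ => Real.log N ^ 5 * Real.exp (-(Real.log N / 4))) atTop (𝓝 0) := by
  have h := (((Real.tendsto_pow_mul_exp_neg_atTop_nhds_zero 5).comp
    (tendsto_id.atTop_div_const (show (0 : ℝ) < 4 by norm_num))).comp
      (Real.tendsto_log_atTop.comp tendsto_natCast_atTop_atTop)).const_mul ((4 : ℝ) ^ 5)
  rw [mul_zero] at h
  refine h.congr fun N => ?_
  simp only [Function.comp_apply, id]
  ring

/-- The shares up to the cut sum to `log log N + o (√(log log N))`. -/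
theorem tendsto_shareSum_cut (m : ℕ) :
    Tendsto (fun N : ℕ => ((∑ l ∈ sievePrimes m (cut N), localShare l) - loglog N) /
      Real.sqrt (loglog N)) atTop (𝓝 0) := by
  have h1 : Tendsto (fun N : ℕ => ((m : ℝ) + 5) / Real.sqrt (loglog N)) atTop (𝓝 0) :=
    tendsto_const_nhds.div_atTop (Real.tendsto_sqrt_atTop.comp FA.ErdosKac.tendsto_loglog)
  have h2 := h1.add FA.ErdosKac.tendsto_recipSum_cut.abs
  rw [abs_zero, add_zero] at h2
  refine squeeze_zero_norm (fun N => ?_) h2
  rw [Real.norm_eq_abs, abs_div, abs_of_nonneg (Real.sqrt_nonneg _), abs_div,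
    abs_of_nonneg (Real.sqrt_nonneg _), ← add_div]
  refine div_le_div_of_nonneg_right ?_ (Real.sqrt_nonneg _)
  exact (abs_sub_le _ (recipSum (cut N)) _).trans
    (add_le_add (FA.PointOmega.abs_shareSum_sub_recipSum_le m (cut N)) le_rfl)

/-- The error of the model is negligible. -/
theorem error_le {K P D n L x t B : ℝ} {k : ℕ} (hk : (k : ℝ) = K) (hn : 0 < n) (hL : L = Real.log n)
    (hL1 : 1 ≤ L) (hB : 0 ≤ B) (hP0 : 0 ≤ P) (hP : P ≤ Real.exp (L / x + 2))
    (hD0 : 0 ≤ D) (hD : D ≤ Real.exp (L / x)) (hx : 1 ≤ x) (hsx : 48 * (12 * |t| + 2) ≤ √x)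
    (hxL : x * (104 * (12 * |t| + 2)) ≤ L) (hK : K ≤ (12 * |t| + 2) * √x)
    {X : ℝ} (hX : n / (2 * L) ≤ X) :
    (K + 1) * P ^ k * (2 * B * (D ^ k) ^ 5 * (√n * L ^ 4 + 1)) / X ≤
      8 * B * (L ^ 5 * Real.exp (-(L / 4))) := by
  obtain ⟨T, hT⟩ : ∃ T, T = 12 * |t| + 2 := ⟨_, rfl⟩
  rw [← hT] at hsx hxL hK
  have hT0 : 2 ≤ T := by linarith [abs_nonneg t]
  have hK0 : 0 ≤ K := hk ▸ Nat.cast_nonneg k
  have hsn : √n = Real.exp (L / 2) := by
    rw [Real.exp_half, hL, Real.exp_log hn]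
  have hR : √n * L ^ 4 + 1 ≤ 2 * (Real.exp (L / 2) * L ^ 4) := by
    rw [hsn]
    linarith [one_le_mul_of_one_le_of_one_le (Real.one_le_exp (show 0 ≤ L / 2 by linarith))
      (one_le_pow₀ hL1 (n := 4))]
  have hexp : Real.exp K * Real.exp (K * (L / x + 2)) * Real.exp (5 * (K * (L / x))) ≤
      Real.exp (L / 4) := by
    rw [← Real.exp_add, ← Real.exp_add, Real.exp_le_exp]
    have hs0 : 0 < √x := Real.sqrt_pos.2 (by linarith)
    have h1 : K * (L / x) ≤ L / 48 := by
      refine (mul_le_mul_of_nonneg_right hK (div_nonneg (by linarith) (by linarith))).trans ?_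
      have e : T * √x * (L / x) = T * L / √x := by
        rw [mul_div_assoc', div_eq_div_iff (by linarith) hs0.ne']
        linear_combination (T * L) * Real.mul_self_sqrt (show 0 ≤ x by linarith)
      rw [e, div_le_div_iff₀ hs0 (by norm_num)]
      have := mul_le_mul_of_nonneg_right hsx (show 0 ≤ L by linarith)
      linarith
    have h2 : K ≤ L / 104 := by
      have h3 : √x ≤ x := Real.sqrt_le_iff.2 ⟨by linarith, le_self_pow₀ hx two_ne_zero⟩
      have h4 := mul_le_mul_of_nonneg_left h3 (show 0 ≤ T by linarith)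
      linarith
    linarith
  have hX0 : 0 < X := lt_of_lt_of_le (by positivity) hX
  have hA : (K + 1) * P ^ k * (2 * B * (D ^ k) ^ 5 * (√n * L ^ 4 + 1)) ≤
      2 * B * (Real.exp K * Real.exp (K * (L / x + 2)) * Real.exp (5 * (K * (L / x)))) *
        (2 * (Real.exp (L / 2) * L ^ 4)) := by
    have hPk : P ^ k ≤ Real.exp (K * (L / x + 2)) := by
      rw [← hk, Real.exp_nat_mul]
      exact pow_le_pow_left₀ hP0 hP k
    have hDk : (D ^ k) ^ 5 ≤ Real.exp (5 * (K * (L / x))) := by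
      rw [show (5 : ℝ) = ((5 : ℕ) : ℝ) by norm_num, Real.exp_nat_mul, ← hk, Real.exp_nat_mul]
      exact pow_le_pow_left₀ (pow_nonneg hD0 k) (pow_le_pow_left₀ hD0 hD k) 5
    have h1 := mul_le_mul (mul_le_mul (Real.add_one_le_exp K) hPk (pow_nonneg hP0 k)
      (Real.exp_pos _).le) hDk (by positivity) (by positivity)
    have h2 := mul_le_mul (mul_le_mul_of_nonneg_left h1 (show 0 ≤ 2 * B by linarith)) hR
      (by positivity) (by positivity)
    refine le_of_eq_of_le ?_ h2
    ring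
  rw [div_le_iff₀ hX0]
  refine hA.trans ?_
  refine le_trans (mul_le_mul_of_nonneg_right (mul_le_mul_of_nonneg_left hexp (by linarith))
    (by positivity)) (le_trans (le_of_eq ?_) (mul_le_mul_of_nonneg_left hX (by positivity)))
  have e : Real.exp (L / 4) * Real.exp (L / 2) = Real.exp (-(L / 4)) * n := by
    rw [show n = Real.exp L by rw [hL, Real.exp_log hn], ← Real.exp_add, ← Real.exp_add]
    ring_nf
  field_simp
  linear_combination (8 * B) * e

variable (W : WeierstrassCurve ℤ)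

theorem filter_dvdCount (T : Finset ℕ) (N : ℕ) :
    ((dvdCount W ∅ N).filter fun p => ∀ q ∈ T, q ∣ pointsMod W p) = dvdCount W T N := by
  rw [dvdCount, dvdCount, filter_filter]
  exact filter_congr fun p _ => by simp [and_assoc]

/-- The middle primes add little on average. -/
theorem sum_middle_le {N z w : ℕ} {m : ℕ} (hwz : w ≤ z) {li E : ℝ}
    (h : ∀ q ∈ sievePrimes m z, ((((dvdCount W ∅ N).filter fun p => q ∣ pointsMod W p).card : ℕ) :
      ℝ) ≤ localShare q * li + E) (hE : 0 ≤ E) :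
    ∑ p ∈ dvdCount W ∅ N, ((((sievePrimes m z).filter (· ∣ pointsMod W p)).card : ℝ) -
      ((sievePrimes m w).filter (· ∣ pointsMod W p)).card) ≤
      ((∑ q ∈ sievePrimes m z, localShare q) - ∑ q ∈ sievePrimes m w, localShare q) * li +
        z * E := by
  have hsub : sievePrimes m w ⊆ sievePrimes m z := fun q hq => by
    rw [sievePrimes, mem_filter, mem_primesUpTo] at hq ⊢
    exact ⟨⟨hq.1.1, hq.1.2.trans hwz⟩, hq.2⟩
  have e : ∀ p, (((sievePrimes m z).filter (· ∣ pointsMod W p)).card : ℝ) -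
      ((sievePrimes m w).filter (· ∣ pointsMod W p)).card =
      ∑ q ∈ sievePrimes m z \ sievePrimes m w, if q ∣ pointsMod W p then (1 : ℝ) else 0 :=
    fun p => by
      simp only [← sum_boole]
      rw [← sum_sdiff hsub, add_sub_cancel_right]
  rw [sum_congr rfl fun p _ => e p, sum_comm, ← sum_sdiff hsub, add_sub_cancel_right, sum_mul]
  refine (sum_le_sum fun q hq => (le_of_eq (sum_boole _ _)).trans
    (h q (mem_sdiff.1 hq).1)).trans ?_
  rw [sum_add_distrib, sum_const, nsmul_eq_mul]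
  refine add_le_add le_rfl (mul_le_mul_of_nonneg_right (Nat.cast_le.2 ?_) hE)
  refine (card_le_card (t := Icc 1 z) fun q hq => ?_).trans (by simp)
  have hq' := (mem_sdiff.1 hq).1
  rw [sievePrimes, mem_filter, mem_primesUpTo] at hq'
  exact mem_Icc.2 ⟨hq'.1.1.one_le, hq'.1.2⟩

variable [(ratCurve W).IsElliptic]

/-- The numbers differ little from the centred count. -/
theorem exists_deviation_le (hΔ : W.Δ ≠ 0) (hGRH : AllFieldsRH) {m : ℕ} (hm : m ≠ 0)
    (hsurj : ∀ N : ℕ, N ≠ 0 → N.Coprime m →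
      ∀ φ : Submodule.torsionBy ℤ ((ratCurve W)⁄Qb).Point (N : ℤ) ≃+
        Submodule.torsionBy ℤ ((ratCurve W)⁄Qb).Point (N : ℤ),
      ∃ σ : GQ, ∀ x, σ • x.1 = (φ x).1) :
    ∃ a b : ℝ, ∀ᶠ N : ℕ in atTop,
      (∑ p ∈ dvdCount W ∅ N, |(omegaPoints W p : ℝ) - loglog N -
        ((((sievePrimes m (cut N)).filter (· ∣ pointsMod W p)).card : ℝ) -
          ∑ q ∈ sievePrimes m (cut N), localShare q)|) /
        ((dvdCount W ∅ N).card * Real.sqrt (loglog N)) ≤
      a / Real.sqrt (loglog N) + 9 * |((∑ q ∈ sievePrimes m (cut N), localShare q) - loglog N) /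
        Real.sqrt (loglog N)| + b * (Real.log N ^ 5 * Real.exp (-(Real.log N / 4))) := by
  obtain ⟨B, hB, hlev⟩ := FA.PointOmega.exists_dvdCount_level_le W hΔ hGRH hm hsurj
  obtain ⟨C, hC, hev⟩ := FA.PointOmega.exists_turan_good W hΔ hGRH hm hsurj
  obtain ⟨C₁, hC₁, hshare⟩ := FA.PointOmega.exists_shareSum_sub_le m
  refine ⟨(m : ℝ) + 121 + 8 * C₁, 16 * B, ?_⟩
  filter_upwards [hev, tendsto_natCast_atTop_atTop.eventually
      ((FA.ArtinHooley.tendsto_logInt).eventually
        (Iic_mem_nhds (show (1 : ℝ) < 2 by norm_num))),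
    (Real.tendsto_log_atTop.comp tendsto_natCast_atTop_atTop).eventually_ge_atTop 80,
    FA.ErdosKac.tendsto_loglog.eventually_ge_atTop 40, eventually_ge_atTop 2]
    with N hN' hli hL hx hN
  obtain ⟨hlow, -⟩ := hN'
  change _ ≤ (2 : ℝ) at hli
  simp only [Function.comp_apply] at hL
  obtain ⟨L, hLdef⟩ : ∃ L, L = Real.log (N : ℝ) := ⟨_, rfl⟩
  rw [← hLdef] at hlow hli hL ⊢
  obtain ⟨x, hxdef⟩ : ∃ x, x = loglog N := ⟨_, rfl⟩
  rw [← hxdef] at hx ⊢
  have hN0 : (0 : ℝ) < N := Nat.cast_pos.2 (by omega)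
  have hN1 : (1 : ℝ) ≤ N := Nat.one_le_cast.2 (by omega)
  rw [div_le_iff₀ hN0] at hli
  obtain ⟨y, hy⟩ : ∃ y, y = (N : ℝ) ^ (1 / 40 : ℝ) := ⟨_, rfl⟩
  have hyexp : y = Real.exp (L / 40) := by
    rw [hy, Real.rpow_def_of_pos hN0, ← hLdef]
    ring_nf
  obtain ⟨z, hz⟩ : ∃ z, z = ⌊y⌋₊ := ⟨_, rfl⟩
  have hy2 : 3 ≤ y := by
    rw [hyexp]
    linarith [Real.add_one_le_exp (L / 40)]
  have hzy : (z : ℝ) ≤ y := hz ▸ Nat.floor_le (by linarith)
  have hyz : y < z + 1 := hz ▸ Nat.lt_floor_add_one y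
  have hz2 : 2 ≤ z := hz ▸ Nat.le_floor (by push_cast; linarith)
  have hz1 : (1 : ℝ) ≤ z := Nat.one_le_cast.2 (by omega)
  have hNz : N ≤ (z + 1) ^ 40 := by
    have h := pow_le_pow_left₀ (show (0 : ℝ) ≤ y by linarith) hyz.le 40
    rw [hy, ← Real.rpow_natCast ((N : ℝ) ^ (1 / 40 : ℝ)) 40, ← Real.rpow_mul hN0.le,
      show (1 / 40 : ℝ) * ((40 : ℕ) : ℝ) = 1 by norm_num, Real.rpow_one] at h
    exact_mod_cast h
  have hcz : cut N ≤ z := by
    rw [hz, cut, ← hLdef, ← hxdef, hyexp]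
    exact Nat.floor_mono (Real.exp_le_exp.2
      (div_le_div_of_nonneg_left (by linarith) (by norm_num) hx))
  obtain ⟨S, hS⟩ : ∃ S, S = dvdCount W ∅ N := ⟨_, rfl⟩
  rw [← hS] at hlow ⊢
  have hS0 : (0 : ℝ) < S.card := lt_of_lt_of_le (by positivity) hlow
  obtain ⟨R, hR⟩ : ∃ R, R = √(N : ℝ) * L ^ 4 + 1 := ⟨_, rfl⟩
  have hR0 : 0 ≤ R := hR ▸ by positivity
  have hcnt : ∀ q ∈ sievePrimes m z, ((((dvdCount W ∅ N).filter fun p => q ∣ pointsMod W p).card :
      ℕ) : ℝ) ≤ localShare q * logInt N + B * (2 * (z : ℝ) ^ 5) * R := by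
    intro q hq
    rw [sievePrimes, mem_filter, mem_primesUpTo] at hq
    have h := (abs_le.1 (hlev {q} (fun l hl => by
      rw [mem_singleton] at hl
      exact hl ▸ ⟨hq.1.1, hq.2⟩) N hN)).2
    rw [← filter_dvdCount] at h
    simp only [mem_singleton, forall_eq, prod_singleton] at h
    rw [← hLdef, ← hR] at h
    have hq0 : (0 : ℝ) ≤ q := Nat.cast_nonneg q
    have hqz : (q : ℝ) ≤ z := Nat.cast_le.2 hq.1.2
    have h2 : (q : ℝ) ^ 4 * (1 + Real.log q) ≤ 2 * (z : ℝ) ^ 5 := by
      refine (mul_le_mul (pow_le_pow_left₀ hq0 hqz 4)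
        (show 1 + Real.log (q : ℝ) ≤ 2 * z by linarith [Real.log_le_self hq0])
        (by linarith [Real.log_natCast_nonneg q]) (by positivity)).trans (le_of_eq (by ring))
    linarith [mul_le_mul_of_nonneg_right (mul_le_mul_of_nonneg_left h2 hB) hR0]
  have hmid := sum_middle_le W (w := cut N) hcz hcnt (by positivity)
  rw [← hS] at hmid
  obtain ⟨σz, hσz⟩ : ∃ σ, σ = ∑ q ∈ sievePrimes m z, localShare q := ⟨_, rfl⟩
  obtain ⟨σ, hσ⟩ : ∃ σ, σ = ∑ q ∈ sievePrimes m (cut N), localShare q := ⟨_, rfl⟩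
  rw [← hσz, ← hσ] at hmid
  rw [← hσ]
  have hσz1 := (abs_le.1 (hshare N z hz2 (hy ▸ hzy) (by rw [← hy]; linarith) (hLdef ▸ hL))).2
  rw [← hσz, ← hxdef] at hσz1
  have hsum : ∑ p ∈ S, |(omegaPoints W p : ℝ) - x -
      ((((sievePrimes m (cut N)).filter (· ∣ pointsMod W p)).card : ℝ) - σ)| ≤
      S.card * ((m : ℝ) + 121 + |σ - x|) + ∑ p ∈ S,
        ((((sievePrimes m z).filter (· ∣ pointsMod W p)).card : ℝ) -
          ((sievePrimes m (cut N)).filter (· ∣ pointsMod W p)).card) := by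
    rw [← nsmul_eq_mul, ← sum_const, ← sum_add_distrib]
    refine sum_le_sum fun p hp => ?_
    rw [hS, dvdCount, mem_filter, mem_Icc] at hp
    haveI := Fact.mk hp.2.1
    obtain ⟨hpos, hle⟩ := FA.PointOmega.pointsMod_pos W p
    have hM : pointsMod W p ≤ N ^ 3 := by
      have h1 : p ^ 2 ≤ N ^ 2 := Nat.pow_le_pow_left hp.1.2 2
      have h2 : N ^ 2 * 2 ≤ N ^ 2 * N := Nat.mul_le_mul_left _ hN
      have h3 : 1 ≤ N ^ 2 := Nat.one_le_pow _ _ (by omega)
      rw [pow_succ N 2]
      omega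
    have h := abs_le.1 (FA.PointOmega.abs_omega_sub_le (m := m) hpos.ne'
      (show 1 ≤ z by omega) hM hNz)
    have hmono := (Nat.cast_le (α := ℝ)).2 (card_le_card (filter_subset_filter
      (fun q => q ∣ pointsMod W p) (fun q hq => by
        rw [sievePrimes, mem_filter, mem_primesUpTo] at hq ⊢
        exact ⟨⟨hq.1.1, hq.1.2.trans hcz⟩, hq.2⟩ :
          sievePrimes m (cut N) ⊆ sievePrimes m z)))
    rw [omegaPoints, abs_le]
    constructor <;> linarith [le_abs_self (σ - x), neg_abs_le (σ - x)]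
  have hsub0 : σ ≤ σz := by
    rw [hσ, hσz]
    refine sum_le_sum_of_subset_of_nonneg (fun q hq => ?_) fun q hq _ =>
      (share_le_two_div (two_le_of_mem hq)).1
    rw [sievePrimes, mem_filter, mem_primesUpTo] at hq ⊢
    exact ⟨⟨hq.1.1, hq.1.2.trans hcz⟩, hq.2⟩
  have hliS : logInt N ≤ 8 * S.card := by
    rw [div_le_iff₀ (by linarith)] at hlow
    refine le_of_mul_le_mul_right ?_ (show 0 < L by linarith)
    linarith
  have hmid2 : (σz - σ) * logInt N ≤ (C₁ + |σ - x|) * (8 * S.card) := by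
    refine (mul_le_mul_of_nonneg_left hliS (by linarith)).trans
      (mul_le_mul_of_nonneg_right ?_ (by linarith))
    linarith [neg_abs_le (σ - x)]
  have hlast : (z : ℝ) * (B * (2 * (z : ℝ) ^ 5) * R) ≤
      16 * B * (L ^ 5 * Real.exp (-(L / 4))) * S.card := by
    have hR2 : R ≤ 2 * (Real.exp (L / 2) * L ^ 4) := by
      rw [hR, show √(N : ℝ) = Real.exp (L / 2) by rw [Real.exp_half, hLdef, Real.exp_log hN0]]
      linarith [one_le_mul_of_one_le_of_one_le (Real.one_le_exp (show 0 ≤ L / 2 by linarith))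
        (one_le_pow₀ (show (1 : ℝ) ≤ L by linarith) (n := 4))]
    have h6 : (z : ℝ) ^ 6 ≤ Real.exp (L / 4) := by
      refine (pow_le_pow_left₀ (by linarith) hzy 6).trans ?_
      rw [hyexp, ← Real.exp_nat_mul, Real.exp_le_exp]
      push_cast
      linarith
    have h7 : Real.exp (L / 4) * Real.exp (L / 2) = Real.exp (-(L / 4)) * N := by
      rw [show (N : ℝ) = Real.exp L by rw [hLdef, Real.exp_log hN0], ← Real.exp_add,
        ← Real.exp_add]
      ring_nf
    rw [div_le_iff₀ (by linarith)] at hlow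
    calc (z : ℝ) * (B * (2 * (z : ℝ) ^ 5) * R) = 2 * B * ((z : ℝ) ^ 6 * R) := by ring
      _ ≤ 2 * B * (Real.exp (L / 4) * (2 * (Real.exp (L / 2) * L ^ 4))) :=
          mul_le_mul_of_nonneg_left (mul_le_mul h6 hR2 hR0 (Real.exp_pos _).le) (by linarith)
      _ = 4 * B * L ^ 4 * Real.exp (-(L / 4)) * N := by linear_combination (4 * B * L ^ 4) * h7
      _ ≤ 4 * B * L ^ 4 * Real.exp (-(L / 4)) * (S.card * (4 * L)) :=
          mul_le_mul_of_nonneg_left hlow (by positivity)
      _ = _ := by ring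
  have hs1 : 1 ≤ √x := Real.one_le_sqrt.2 (by linarith)
  rw [abs_div, abs_of_nonneg (Real.sqrt_nonneg x), div_le_iff₀ (mul_pos hS0 (by linarith))]
  refine le_trans (hsum.trans ((add_le_add le_rfl hmid).trans (add_le_add le_rfl
    (add_le_add hmid2 hlast)))) ?_
  have h1 := mul_le_mul_of_nonneg_left hs1
    (mul_nonneg (show 0 ≤ 16 * B * (L ^ 5 * Real.exp (-(L / 4))) by positivity)
      (Nat.cast_nonneg (α := ℝ) S.card))
  have e1 : ∀ a : ℝ, a / √x * (S.card * √x) = a * S.card := fun a => by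
    rw [mul_comm (S.card : ℝ), ← mul_assoc, div_mul_cancel₀ _ (by linarith : √x ≠ 0)]
  refine le_trans ?_ (le_of_eq (add_mul _ _ _).symm)
  rw [add_mul _ (9 * (|σ - x| / √x)), e1, mul_assoc (9 : ℝ), e1]
  linarith

/-- **Erdős and Kac for point counts.** -/
theorem tendsto_omegaPoints (hΔ : W.Δ ≠ 0) (hGRH : AllFieldsRH) {m : ℕ} (hm : m ≠ 0)
    (hsurj : ∀ N : ℕ, N ≠ 0 → N.Coprime m →
      ∀ φ : Submodule.torsionBy ℤ ((ratCurve W)⁄Qb).Point (N : ℤ) ≃+
        Submodule.torsionBy ℤ ((ratCurve W)⁄Qb).Point (N : ℤ),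
      ∃ σ : GQ, ∀ x, σ • x.1 = (φ x).1) (y : ℝ) :
    Tendsto (fun N : ℕ => (((dvdCount W ∅ N).filter fun p =>
      (omegaPoints W p : ℝ) - loglog N ≤ y * Real.sqrt (loglog N)).card : ℝ) /
        (dvdCount W ∅ N).card) atTop
      (𝓝 ((ProbabilityTheory.gaussianReal 0 1).real (Set.Iic y))) := by
  obtain ⟨B, hB, hlev⟩ := FA.PointOmega.exists_dvdCount_level_le W hΔ hGRH hm hsurj
  obtain ⟨C, -, hev⟩ := FA.PointOmega.exists_turan_good W hΔ hGRH hm hsurj
  obtain ⟨a, b, hdev⟩ := exists_deviation_le W hΔ hGRH hm hsurj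
  have hx := FA.ErdosKac.tendsto_loglog
  have hlogN : Tendsto (fun N : ℕ => Real.log N) atTop atTop :=
    Real.tendsto_log_atTop.comp tendsto_natCast_atTop_atTop
  have hpos : ∀ᶠ N : ℕ in atTop, 0 < (dvdCount W ∅ N).card := by
    filter_upwards [hev, eventually_ge_atTop 2] with N hN hN2
    have h0 : (0 : ℝ) < (N : ℝ) / (4 * Real.log N) :=
      div_pos (Nat.cast_pos.2 (by omega)) (by
        have := Real.log_pos (Nat.one_lt_cast.2 (show 1 < N by omega) : (1 : ℝ) < N)
        linarith)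
    exact_mod_cast h0.trans_le hN.1
  refine tendsto_gaussian (v := fun N p => (omegaPoints W p : ℝ) - loglog N) (x := loglog)
    (hpos.mono fun N hN => card_pos.1 hN) (hx.eventually_gt_atTop 0) (fun t => ?_) y
  refine tendsto_charAvg (P := fun N => sievePrimes m (cut N)) (f := pointsMod W)
    (c := localShare) (X := fun N => logInt N) (C := 4)
    (E := fun N => 2 * B * ((cut N : ℝ) ^ truncLen t (loglog N)) ^ 5 *
      (√(N : ℝ) * Real.log N ^ 4 + 1)) t
    (fun N q hq => ⟨(share_le_two_div (two_le_of_mem hq)).1,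
      (share_le_two_div (two_le_of_mem hq)).2.1⟩)
    (fun N => ?_) hx (tendsto_shareSum_cut m) ?_ ?_ ?_
  · refine (sum_le_sum fun q hq => pow_le_pow_left₀ (share_le_two_div (two_le_of_mem hq)).1
      (share_le_two_div (two_le_of_mem hq)).2.2 2).trans ?_
    simp only [mul_pow]
    rw [← mul_sum]
    have := FA.ErdosKac.sum_inv_sq_le (sievePrimes m (cut N)) fun q hq =>
      (mem_primesUpTo.1 (mem_filter.1 hq).1).1
    linarith
  · filter_upwards [hpos, eventually_ge_atTop 2,
      tendsto_natCast_atTop_atTop.eventually ((FA.ArtinHooley.tendsto_logInt).eventually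
        (Ioi_mem_nhds (show (0 : ℝ) < 1 by norm_num))),
      FA.ErdosKac.eventually_cut] with N hS hN hli hc
    change (0 : ℝ) < _ at hli
    have hN0 : (0 : ℝ) < N := Nat.cast_pos.2 (by omega)
    have hl0 : 0 < Real.log N := Real.log_pos (Nat.one_lt_cast.2 (by omega))
    refine ⟨?_, hS, by positivity, fun T hT hTK => ?_⟩
    · rw [div_pos_iff] at hli
      rcases hli with h | h
      · exact (pos_iff_pos_of_mul_pos h.1).2 hl0
      · linarith
    rw [filter_dvdCount]
    refine (hlev T (fun l hl => ?_) N hN).trans ?_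
    · have := hT hl
      rw [sievePrimes, mem_filter, mem_primesUpTo] at this
      exact ⟨this.1.1, this.2⟩
    have hd : ∏ l ∈ T, l ≤ cut N ^ truncLen t (loglog N) := by
      refine (prod_le_pow_card _ _ (cut N) fun l hl => ?_).trans
        (Nat.pow_le_pow_right (by omega) hTK)
      have := hT hl
      rw [sievePrimes, mem_filter, mem_primesUpTo] at this
      exact this.1.2
    have hd0 : (0 : ℝ) ≤ ((∏ l ∈ T, l : ℕ) : ℝ) := Nat.cast_nonneg _
    have hdR : ((∏ l ∈ T, l : ℕ) : ℝ) ≤ (cut N : ℝ) ^ truncLen t (loglog N) := by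
      exact_mod_cast hd
    have hc1 : (1 : ℝ) ≤ (cut N : ℝ) ^ truncLen t (loglog N) :=
      one_le_pow₀ (Nat.one_le_cast.2 (by omega))
    have h2 := mul_le_mul (pow_le_pow_left₀ hd0 hdR 4)
      (show 1 + Real.log ((∏ l ∈ T, l : ℕ) : ℝ) ≤ 2 * (cut N : ℝ) ^ truncLen t (loglog N) by
        linarith [Real.log_le_self hd0])
      (by linarith [Real.log_natCast_nonneg (∏ l ∈ T, l)]) (by positivity)
    refine (mul_le_mul_of_nonneg_right (mul_le_mul_of_nonneg_left h2 hB) (by positivity)).trans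
      (le_of_eq (by ring))
  · refine squeeze_zero' ?_ ?_ (by simpa using tendsto_decay.const_mul (8 * B))
    · filter_upwards [eventually_ge_atTop 2] with N hN
      refine div_nonneg (mul_nonneg (mul_nonneg (add_nonneg (Nat.cast_nonneg _) zero_le_one)
        (pow_nonneg (mul_nonneg two_pos.le (add_nonneg (Nat.cast_nonneg _) zero_le_one)) _)) ?_)
        (FA.ArtinHooley.logInt_nonneg (by exact_mod_cast hN))
      positivity
    filter_upwards [FA.ErdosKac.eventually_cut, hx.eventually_ge_atTop 1,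
      (Real.tendsto_sqrt_atTop.comp hx).eventually_ge_atTop (48 * (12 * |t| + 2)),
      (Real.isLittleO_log_id_atTop.comp_tendsto hlogN).bound
        (show (0 : ℝ) < 1 / (104 * (12 * |t| + 2)) by positivity),
      tendsto_natCast_atTop_atTop.eventually ((FA.ArtinHooley.tendsto_logInt).eventually
        (Ici_mem_nhds (show (1 / 2 : ℝ) < 1 by norm_num))),
      hlogN.eventually_ge_atTop 1, eventually_ge_atTop 2] with N hc hx1 hsx hlo hli hL hN
    simp only [Function.comp_apply, id_eq, Real.norm_eq_abs] at hsx hlo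
    change (1 / 2 : ℝ) ≤ _ at hli
    have hN0 : (0 : ℝ) < N := Nat.cast_pos.2 (by omega)
    rw [le_div_iff₀ hN0] at hli
    have hexp : (cut N : ℝ) ≤ Real.exp (Real.log N / loglog N) := Nat.floor_le (Real.exp_pos _).le
    refine error_le (x := loglog N) (t := t) rfl hN0 rfl hL hB
      (mul_nonneg two_pos.le (add_nonneg (Nat.cast_nonneg _) zero_le_one)) ?_
      (Nat.cast_nonneg _) hexp hx1 hsx ?_ ?_ ?_
    · rw [Real.exp_add]
      have h1 : ((sievePrimes m (cut N)).card : ℝ) ≤ cut N := by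
        refine Nat.cast_le.2 ((card_le_card (t := Icc 1 (cut N)) fun q hq => ?_).trans (by simp))
        rw [sievePrimes, mem_filter, mem_primesUpTo] at hq
        exact mem_Icc.2 ⟨hq.1.1.one_le, hq.1.2⟩
      have h3 : (2 : ℝ) ≤ cut N := Nat.ofNat_le_cast.2 hc.1
      have h4 : (4 : ℝ) ≤ Real.exp 2 := by
        rw [show (2 : ℝ) = 1 + 1 by norm_num, Real.exp_add]
        nlinarith [Real.exp_one_gt_d9]
      have h5 := mul_le_mul hexp h4 (by norm_num) (Real.exp_pos _).le
      linarith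
    · have h := (le_abs_self _).trans hlo
      rw [abs_of_pos (by linarith : 0 < Real.log N), one_div_mul_eq_div,
        le_div_iff₀ (by positivity)] at h
      exact h
    · refine (Nat.ceil_lt_add_one (by positivity)).le.trans ?_
      have := Real.one_le_sqrt.2 hx1
      rw [show (12 * |t| + 2) * √(loglog N) = (12 * |t| + 1) * √(loglog N) + √(loglog N) by ring]
      linarith
    · rw [div_le_iff₀ (by linarith)]
      linarith
  · have h := ((tendsto_const_nhds (x := a)).div_atTop (Real.tendsto_sqrt_atTop.comp hx)).add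
      ((tendsto_shareSum_cut m).abs.const_mul 9) |>.add (tendsto_decay.const_mul b)
    simp only [abs_zero, mul_zero, add_zero] at h
    exact squeeze_zero' (Eventually.of_forall fun N => div_nonneg
      (sum_nonneg fun p _ => abs_nonneg _)
      (mul_nonneg (Nat.cast_nonneg _) (Real.sqrt_nonneg _))) hdev h

end FA.PointEK

end
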